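import Fermat.Agent.S52_asm.PointCount

/-!
# Number of points of Weierstrass curves with proportional invariants
-/

set_option autoImplicit false

namespace Fermat.Agent.SW2

open WeierstrassCurve Fermat.Agent.S52 Fermat.Agent.S52A

variable {F : Type} [Field F]

lemma equation_iff_sq (V : WeierstrassCurve F) (h2 : (2 : F) ≠ 0) (x y : F) :
    V.toAffine.Equation x y ↔
      (2 * y + V.a₁ * x + V.a₃) ^ 2 = 4 * x ^ 3 + V.b₂ * x ^ 2 + 2 * V.b₄ * x + V.b₆ := by
  rw [Affine.equation_iff]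
  constructor
  · intro h
    simp only [WeierstrassCurve.b₂, WeierstrassCurve.b₄, WeierstrassCurve.b₆]
    linear_combination 4 * h
  · intro h
    simp only [WeierstrassCurve.b₂, WeierstrassCurve.b₄, WeierstrassCurve.b₆] at h
    have h4 : (4 : F) ≠ 0 := by
      have : (4 : F) = 2 ^ 2 := by norm_num
      rw [this]; exact pow_ne_zero 2 h2
    apply mul_left_cancel₀ h4
    linear_combination h

/-- The change of variables between two curves with proportional invariants. -/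
def scaleEquiv (V V' : WeierstrassCurve F) (h2 : (2 : F) ≠ 0) {u : F} (hu : u ≠ 0) :
    F × F ≃ F × F where
  toFun P := (u ^ 2 * P.1, (u ^ 3 * (2 * P.2 + V'.a₁ * P.1 + V'.a₃) - V.a₁ * (u ^ 2 * P.1) - V.a₃) / 2)
  invFun P := (P.1 / u ^ 2, ((2 * P.2 + V.a₁ * P.1 + V.a₃) / u ^ 3 - V'.a₁ * (P.1 / u ^ 2) - V'.a₃) / 2)
  left_inv P := by
    refine Prod.ext ?_ ?_
    · simp only
      field_simp
    · simp only
      field_simp
      ring
  right_inv P := by
    refine Prod.ext ?_ ?_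
    · simp only
      field_simp
    · simp only
      field_simp
      ring

theorem scale_equation_iff (V V' : WeierstrassCurve F) (h2 : (2 : F) ≠ 0) {u : F}
    (hu : u ≠ 0) (h₂ : V.b₂ = u ^ 2 * V'.b₂)
    (h₄ : V.b₄ = u ^ 4 * V'.b₄) (h₆ : V.b₆ = u ^ 6 * V'.b₆) (P : F × F) :
    V'.toAffine.Equation P.1 P.2 ↔ V.toAffine.Equation (scaleEquiv V V' h2 hu P).1
      (scaleEquiv V V' h2 hu P).2 := by
  rw [equation_iff_sq V' h2, equation_iff_sq V h2]
  have e1 : (scaleEquiv V V' h2 hu P).1 = u ^ 2 * P.1 := rfl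
  have e2 : 2 * (scaleEquiv V V' h2 hu P).2 + V.a₁ * (scaleEquiv V V' h2 hu P).1 + V.a₃ =
      u ^ 3 * (2 * P.2 + V'.a₁ * P.1 + V'.a₃) := by
    change 2 * ((u ^ 3 * (2 * P.2 + V'.a₁ * P.1 + V'.a₃) - V.a₁ * (u ^ 2 * P.1) - V.a₃) / 2) +
      V.a₁ * (u ^ 2 * P.1) + V.a₃ = _
    rw [mul_div_cancel₀ _ h2]
    ring
  rw [e2, e1, h₂, h₄, h₆]
  have hu6 : u ^ 6 ≠ 0 := pow_ne_zero 6 hu
  constructor
  · intro h
    linear_combination u ^ 6 * h
  · intro h
    apply mul_left_cancel₀ hu6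
    linear_combination h

theorem card_eq_of_scale [Finite F] (V V' : WeierstrassCurve F) (h2 : (2 : F) ≠ 0) {u : F}
    (hu : u ≠ 0) (hΔ : V.Δ ≠ 0) (hΔ' : V'.Δ ≠ 0) (h₂ : V.b₂ = u ^ 2 * V'.b₂)
    (h₄ : V.b₄ = u ^ 4 * V'.b₄) (h₆ : V.b₆ = u ^ 6 * V'.b₆) :
    Nat.card V.toAffine.Point = Nat.card V'.toAffine.Point := by
  have key : Nat.card {P : F × F // V'.toAffine.Equation P.1 P.2} =
      Nat.card {P : F × F // V.toAffine.Equation P.1 P.2} := by
    apply Nat.card_congr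
    exact (scaleEquiv V V' h2 hu).subtypeEquiv fun P =>
      scale_equation_iff V V' h2 hu h₂ h₄ h₆ P
  rw [card_point V hΔ, card_point V' hΔ', key]

theorem card_shortE_scale [Finite F] (h2 : (2 : F) ≠ 0) {u : F} (hu : u ≠ 0) {a b a' b' : F}
    (ha : a = u ^ 4 * a') (hb : b = u ^ 6 * b') (hΔ : (shortE a b).Δ ≠ 0)
    (hΔ' : (shortE a' b').Δ ≠ 0) :
    Nat.card (shortE a b).toAffine.Point = Nat.card (shortE a' b').toAffine.Point := by
  refine card_eq_of_scale _ _ h2 hu hΔ hΔ' ?_ ?_ ?_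
  · simp [shortE, WeierstrassCurve.b₂]
  · simp only [shortE, WeierstrassCurve.b₄, ha]; ring
  · simp only [shortE, WeierstrassCurve.b₆, hb]; ring

end Fermat.Agent.SW2
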