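import Fermat.Agent.S52.Forms
import Mathlib

/-!
# The switch at the prime two: two-adic sizes of the forms

For `a = - 13 b t` (the parameter for which the Tate parameter becomes `q' = 2 ^ 5 q`).
-/

set_option autoImplicit false

namespace Fermat.Agent.SW2

open Fermat.Agent.S52

variable {R : Type*} [CommRing R]

/-- auxiliary polynomial -/
def SDp (r : R) : R := (-12341241) * r ^ 1 + (-954488448) * r ^ 2 + (12711780576) * r ^ 3 + (-430624772096) * r ^ 4 + (-2809312837632) * r ^ 5 + (6115295232000) * r ^ 6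

set_option maxHeartbeats 0 in
theorem idDp (b t r : R) (hr : 2197 * b * t ^ 3 + 1 = -512 * r) :
    13 ^ 12 * Dp (-(13 * b * t)) b t = (17832200896512 + 2 ^ 28 * SDp r) := by
  have key : 13 ^ 12 * Dp (-(13 * b * t)) b t = ((17832200896512) * (-(2197 * b * t ^ 3 + 1)) ^ 0 + (-6470364561408) * (-(2197 * b * t ^ 3 + 1)) ^ 1 + (-977396170752) * (-(2197 * b * t ^ 3 + 1)) ^ 2 + (25423561152) * (-(2197 * b * t ^ 3 + 1)) ^ 3 + (-1682128016) * (-(2197 * b * t ^ 3 + 1)) ^ 4 + (-21433356) * (-(2197 * b * t ^ 3 + 1)) ^ 5 + (91125) * (-(2197 * b * t ^ 3 + 1)) ^ 6) := by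
    simp only [Dp, Dpc0, Dpc2, Dpc3, Dpc4, Dpc5, Dpc6, Dpc7, Dpc8, Dpc9, Dpc10, Dpc11, Dpc12]
    ring
  rw [key, hr, SDp]
  ring

/-- auxiliary polynomial -/
def SC4p (r : R) : R := (95692860783) * r ^ 1 + (-2284269466896) * r ^ 2 + (548961807648384) * r ^ 3 + (-14885841476381184) * r ^ 4 + (-496088470212599808) * r ^ 5 + (-7834755496978612224) * r ^ 6 + (111218808159444402176) * r ^ 7 + (-150045700257717682176) * r ^ 8 + (4258553051436023808000) * r ^ 9 + (3246253105427251200000) * r ^ 10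

set_option maxHeartbeats 0 in
theorem idC4p (b t r : R) (hr : 2197 * b * t ^ 3 + 1 = -512 * r) :
    13 ^ 20 * C4p (-(13 * b * t)) b t = -(13 * b * t) * (3833759992447475122176 + 2 ^ 46 * SC4p r) := by
  have key : 13 ^ 20 * C4p (-(13 * b * t)) b t = -(13 * b * t) * ((3833759992447475122176) * (-(2197 * b * t ^ 3 + 1)) ^ 0 + (13151926640757310488576) * (-(2197 * b * t ^ 3 + 1)) ^ 1 + (-613178915973104664576) * (-(2197 * b * t ^ 3 + 1)) ^ 2 + (287814088208355950592) * (-(2197 * b * t ^ 3 + 1)) ^ 3 + (-15243101671814332416) * (-(2197 * b * t ^ 3 + 1)) ^ 4 + (-992176940425199616) * (-(2197 * b * t ^ 3 + 1)) ^ 5 + (-30604513660072704) * (-(2197 * b * t ^ 3 + 1)) ^ 6 + (848532166743808) * (-(2197 * b * t ^ 3 + 1)) ^ 7 + (-2235855165984) * (-(2197 * b * t ^ 3 + 1)) ^ 8 + (123940206000) * (-(2197 * b * t ^ 3 + 1)) ^ 9 + (184528125) * (-(2197 * b * t ^ 3 + 1)) ^ 10) := by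
    simp only [C4p, C4pc0, C4pc1, C4pc2, C4pc3, C4pc4, C4pc5, C4pc6, C4pc7, C4pc8, C4pc9, C4pc10, C4pc11, C4pc12, C4pc13, C4pc14, C4pc15, C4pc16, C4pc17, C4pc18, C4pc19, C4pc20]
    ring
  rw [key, hr, SC4p]
  ring

/-- auxiliary polynomial -/
def SC6p (r : R) : R := (-34109297550346851) * r ^ 1 + (-3403036414349114112) * r ^ 2 + (-1299577019177987676288) * r ^ 3 + (80804037517616833159680) * r ^ 4 + (-3022865180949873991901184) * r ^ 5 + (-45148453539918839566368768) * r ^ 6 + (-9197812516843057016488329216) * r ^ 7 + (-13258040508487550966226223104) * r ^ 8 + (4218292732222364730545877811200) * r ^ 9 + (13180206913995075606669391036416) * r ^ 10 + (326905053799602441150618908229632) * r ^ 11 + (-3597991735286640340423515461124096) * r ^ 12 + (25326847072585020344763058483101696) * r ^ 13 + (43894150765927625513141387919360000) * r ^ 14 + (167196238580146918226216878080000000) * r ^ 15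

set_option maxHeartbeats 0 in
theorem idC6p (b t r : R) (hr : 2197 * b * t ^ 3 + 1 = -512 * r) :
    13 ^ 30 * C6p (-(13 * b * t)) b t = b * (237376313799769806328950291431424 + 2 ^ 65 * SC6p r) := by
  have key : 13 ^ 30 * C6p (-(13 * b * t)) b t = b * ((237376313799769806328950291431424) * (-(2197 * b * t ^ 3 + 1)) ^ 0 + (-2457833915801783203031006142529536) * (-(2197 * b * t ^ 3 + 1)) ^ 1 + (-478934797737215598186072675188736) * (-(2197 * b * t ^ 3 + 1)) ^ 2 + (-357225010944167799855871659343872) * (-(2197 * b * t ^ 3 + 1)) ^ 3 + (43381337315365165284989243228160) * (-(2197 * b * t ^ 3 + 1)) ^ 4 + (-3169703879979695070931775913984) * (-(2197 * b * t ^ 3 + 1)) ^ 5 + (-92464032849753783431923236864) * (-(2197 * b * t ^ 3 + 1)) ^ 6 + (-36791250067372228065953316864) * (-(2197 * b * t ^ 3 + 1)) ^ 7 + (-103578441472558991923642368) * (-(2197 * b * t ^ 3 + 1)) ^ 8 + (64366039004857860268339200) * (-(2197 * b * t ^ 3 + 1)) ^ 9 + (392800775587411987980288)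 * (-(2197 * b * t ^ 3 + 1)) ^ 10 + (19028378522466078933248) * (-(2197 * b * t ^ 3 + 1)) ^ 11 + (-409044302533247939712) * (-(2197 * b * t ^ 3 + 1)) ^ 12 + (5623689752228826576) * (-(2197 * b * t ^ 3 + 1)) ^ 13 + (19036053447930000) * (-(2197 * b * t ^ 3 + 1)) ^ 14 + (141620722734375) * (-(2197 * b * t ^ 3 + 1)) ^ 15) := by
    simp only [C6p, C6pc0, C6pc1, C6pc2, C6pc3, C6pc4, C6pc5, C6pc6, C6pc7, C6pc8, C6pc9, C6pc10, C6pc11, C6pc12, C6pc13, C6pc14, C6pc15, C6pc16, C6pc17, C6pc18, C6pc19, C6pc20, C6pc21, C6pc22, C6pc23, C6pc24, C6pc25, C6pc26, C6pc27, C6pc28, C6pc29, C6pc30]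
    ring
  rw [key, hr, SC6p]
  ring

end Fermat.Agent.SW2
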