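import Mathlib

/-!
# Integral models with prescribed invariants
-/

set_option autoImplicit false

namespace Fermat.Agent.SW2

open WeierstrassCurve

theorem exists_model {x c4 c6 Δ : ℤ} (hrel : c4 ^ 3 - c6 ^ 2 = 1728 * Δ) (hx : x % 4 = 1)
    (hc6 : c6 % 4 = 3) (hc4 : c4 % 2 = 1) (h3 : (3 : ℤ) ∣ x ^ 2 - c4)
    (h27 : (27 : ℤ) ∣ x ^ 3 - 3 * x * c4 - 2 * c6) :
    ∃ W : WeierstrassCurve ℤ, W.b₂ = x ∧ 24 * W.b₄ = x ^ 2 - c4 ∧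
      432 * W.b₆ = x ^ 3 - 3 * x * c4 - 2 * c6 ∧ W.c₄ = c4 ∧ W.c₆ = c6 := by
  obtain ⟨m, hm⟩ : ∃ m, x = 4 * m + 1 := ⟨x / 4, by omega⟩
  obtain ⟨n, hn⟩ : ∃ n, c6 = 4 * n + 3 := ⟨c6 / 4, by omega⟩
  -- `c4 = 1 mod 8`
  have h8 : c4 % 8 = 1 := by
    have h1 : c4 ^ 3 % 8 = 1 := by
      have : c4 ^ 3 = 8 * (216 * Δ + 2 * n ^ 2 + 3 * n + 1) + 1 := by
        rw [hn] at hrel
        linear_combination hrel
      omega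
    have h2 : c4 % 8 = 1 ∨ c4 % 8 = 3 ∨ c4 % 8 = 5 ∨ c4 % 8 = 7 := by omega
    rcases h2 with h2 | h2 | h2 | h2 <;> simp [pow_succ, Int.mul_emod, h2] at h1 ⊢
  obtain ⟨l, hl⟩ : ∃ l, c4 = 8 * l + 1 := ⟨c4 / 8, by omega⟩
  obtain ⟨β, hβ⟩ : ∃ β, x ^ 2 - c4 = 24 * β := by
    have h1 : (8 : ℤ) ∣ x ^ 2 - c4 := ⟨2 * m ^ 2 + m - l, by rw [hm, hl]; ring⟩
    have h2 : IsCoprime (8 : ℤ) 3 := ⟨-1, 3, by norm_num⟩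
    obtain ⟨β, hβ⟩ := h2.mul_dvd h1 h3
    exact ⟨β, by rw [hβ]; norm_num⟩
  have hc4' : c4 = x ^ 2 - 24 * β := by linarith
  obtain ⟨Y, hY⟩ : ∃ Y, Y = -x ^ 3 + 36 * x * β - c6 := ⟨_, rfl⟩
  have hc6' : c6 = -x ^ 3 + 36 * x * β - Y := by linarith
  have hY2 : x ^ 3 - 3 * x * c4 - 2 * c6 = 2 * Y := by rw [hc4', hY]; ring
  obtain ⟨Y₁, hY₁⟩ : ∃ Y₁, Y = 4 * Y₁ := by
    refine ⟨-(16 * m ^ 3 + 12 * m ^ 2 + 3 * m) + 9 * x * β - n - 1, ?_⟩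
    rw [hY, hn]
    have : x ^ 3 = 4 * (16 * m ^ 3 + 12 * m ^ 2 + 3 * m) + 1 := by rw [hm]; ring
    rw [this]; ring
  have r1 : 54 * x ^ 2 * β ^ 2 - 1728 * β ^ 3 - 2 * Y₁ ^ 2 - x ^ 3 * Y₁ + 36 * x * β * Y₁ =
      216 * Δ := by
    have h1 : 8 * (54 * x ^ 2 * β ^ 2 - 1728 * β ^ 3 - 2 * Y₁ ^ 2 - x ^ 3 * Y₁ +
        36 * x * β * Y₁) = 8 * (216 * Δ) := by
      rw [hc4', hc6', hY₁] at hrel
      linear_combination hrel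
    exact mul_left_cancel₀ (by norm_num) h1
  obtain ⟨Y₂, hY₂⟩ : ∃ Y₂, Y₁ = 2 * Y₂ := by
    have h1 : Even (x ^ 3 * Y₁) :=
      ⟨27 * x ^ 2 * β ^ 2 - 864 * β ^ 3 - Y₁ ^ 2 + 18 * x * β * Y₁ - 108 * Δ, by
        linear_combination -r1⟩
    have hxo : ¬ Even (x ^ 3) := by
      rw [Int.not_even_iff_odd]
      exact Odd.pow ⟨2 * m, by rw [hm]; ring⟩
    have h2 : Even Y₁ := (Int.even_mul.1 h1).resolve_left hxo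
    obtain ⟨z, hz⟩ := h2
    exact ⟨z, by rw [hz]; ring⟩
  have r2 : 27 * x ^ 2 * β ^ 2 - 864 * β ^ 3 - 4 * Y₂ ^ 2 - x ^ 3 * Y₂ + 36 * x * β * Y₂ =
      108 * Δ := by
    have h1 : 2 * (27 * x ^ 2 * β ^ 2 - 864 * β ^ 3 - 4 * Y₂ ^ 2 - x ^ 3 * Y₂ +
        36 * x * β * Y₂) = 2 * (108 * Δ) := by
      rw [hY₂] at r1
      linear_combination r1
    exact mul_left_cancel₀ (by norm_num) h1
  obtain ⟨b6, hb6⟩ : ∃ b6, Y₂ = 27 * b6 := by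
    rw [hY2, hY₁, hY₂] at h27
    have h1 : (27 : ℤ) ∣ 16 * Y₂ := by
      have : 2 * (4 * (2 * Y₂)) = 16 * Y₂ := by ring
      rwa [this] at h27
    have h2 : IsCoprime (27 : ℤ) 16 := ⟨3, -5, by norm_num⟩
    exact h2.dvd_of_dvd_mul_left h1
  obtain ⟨A₆, hA₆⟩ : ∃ A₆, b6 - β ^ 2 = 4 * A₆ := by
    have h1 : (4 : ℤ) ∣ 27 * (b6 - β ^ 2) := by
      have e : 27 * (b6 - β ^ 2) = 4 * (27 * (4 * m ^ 2 + 2 * m) * β ^ 2 - 216 * β ^ 3 - Y₂ ^ 2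
          - (16 * m ^ 3 + 12 * m ^ 2 + 3 * m) * Y₂ + 9 * x * β * Y₂ - 27 * Δ) := by
        have hx2 : x ^ 2 = 4 * (4 * m ^ 2 + 2 * m) + 1 := by rw [hm]; ring
        have hx3 : x ^ 3 = 4 * (16 * m ^ 3 + 12 * m ^ 2 + 3 * m) + 1 := by rw [hm]; ring
        rw [hx2, hx3] at r2
        linear_combination -r2 - hb6
      exact ⟨_, e⟩
    have h2 : IsCoprime (4 : ℤ) 27 := ⟨7, -1, by norm_num⟩
    exact h2.dvd_of_dvd_mul_left h1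
  refine ⟨⟨1, m, β, 0, A₆⟩, ?_, ?_, ?_, ?_, ?_⟩
  · simp only [WeierstrassCurve.b₂]; rw [hm]; ring
  · simp only [WeierstrassCurve.b₄]; rw [hβ]; ring
  · simp only [WeierstrassCurve.b₆]; rw [hY2, hY₁, hY₂, hb6]; linear_combination (-432) * hA₆
  · simp only [WeierstrassCurve.c₄, WeierstrassCurve.b₂, WeierstrassCurve.b₄]
    rw [hc4', hm]; ring
  · simp only [WeierstrassCurve.c₆, WeierstrassCurve.b₂, WeierstrassCurve.b₄, WeierstrassCurve.b₆]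
    rw [hc6', hY₁, hY₂, hb6, hm]; linear_combination 216 * hA₆

end Fermat.Agent.SW2
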