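import Fermat.Agent.S52_asm.ExistsT

/-!
# Parameters without rational three-isogeny in any arithmetic progression
-/

set_option autoImplicit false

namespace Fermat.Agent.SW2

open Polynomial Fermat.Agent.S52 Fermat.Agent.S52A

theorem no_root_poly (I2 : FormsCoprime) (a b : ℤ) (hab : a ^ 3 ≠ b ^ 2) (P : ℚ[X])
    (hP : P.natDegree ≤ 10) :
    Qv ((C4p (C a) (C b) (X : ℤ[X])).map (Int.castRingHom ℚ))
      ((C6p (C a) (C b) (X : ℤ[X])).map (Int.castRingHom ℚ)) P ≠ 0 := by
  intro hroot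
  rw [map_C4p_poly, map_C6p_poly] at hroot
  have habQ : ((Int.castRingHom ℚ) a) ^ 3 ≠ ((Int.castRingHom ℚ) b) ^ 2 := by
    rw [← map_pow, ← map_pow]
    intro h
    exact hab ((Int.castRingHom ℚ).injective_int h)
  set a' : ℚ := (Int.castRingHom ℚ) a
  set b' : ℚ := (Int.castRingHom ℚ) b
  refine no_root_abstract (D := Dp (C a') (C b') X) (δ := a' ^ 3 - b' ^ 2)
    (sub_ne_zero.mpr habQ) ?_ (forms_wronsk a' b') ?_ (natDegree_Dp habQ) (natDegree_C4p a' b') hP
    hroot
  · rw [forms_rel]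
    simp only [map_sub, map_pow]
  · rw [isCoprime_iff_aeval_ne_zero_of_isAlgClosed ℚ (AlgebraicClosure ℚ)]
    intro z
    by_contra hz
    push Not at hz
    obtain ⟨h1, h2⟩ := hz
    have e1 : aeval z (Dp (C a') (C b') (X : ℚ[X]))
        = Dp (algebraMap ℚ (AlgebraicClosure ℚ) a') (algebraMap ℚ (AlgebraicClosure ℚ) b') z := by
      have := map_Dp (aeval z : ℚ[X] →ₐ[ℚ] AlgebraicClosure ℚ).toRingHom (C a') (C b') X
      simpa using this
    have e2 : aeval z (C4p (C a') (C b') (X : ℚ[X]))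
        = C4p (algebraMap ℚ (AlgebraicClosure ℚ) a') (algebraMap ℚ (AlgebraicClosure ℚ) b') z := by
      have := map_C4p (aeval z : ℚ[X] →ₐ[ℚ] AlgebraicClosure ℚ).toRingHom (C a') (C b') X
      simpa using this
    rw [e1] at h1
    rw [e2] at h2
    refine I2 (AlgebraicClosure ℚ) _ _ z (by norm_num) ?_ h1 h2
    intro h
    apply habQ
    apply (algebraMap ℚ (AlgebraicClosure ℚ)).injective
    rw [map_pow (algebraMap ℚ (AlgebraicClosure ℚ)) a', map_pow (algebraMap ℚ _) b']
    exact h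

theorem exists_no_root' (I2 : FormsCoprime) (a b t₀ : ℤ) (hab : a ^ 3 ≠ b ^ 2)
    (hD : Dp a b t₀ ≠ 0) (M : ℤ) (hM : M ≠ 0) :
    ∃ s : ℤ, ∀ x : ℤ, Qv (C4p a b (M * s + t₀)) (C6p a b (M * s + t₀)) x ≠ 0 := by
  by_contra hcon
  push Not at hcon
  have hdeg : ∀ Q : ℤ[X], (Q.comp (X + C t₀)).natDegree = Q.natDegree := by
    intro Q
    rw [natDegree_comp, natDegree_X_add_C, mul_one]
  obtain ⟨P, hP, hroot⟩ := BP ((C4p (C a) (C b) X).comp (X + C t₀))
    ((C6p (C a) (C b) X).comp (X + C t₀)) (by rw [hdeg]; exact natDegree_C4p a b)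
    (by rw [hdeg]; exact natDegree_C6p a b) (by
      rw [coeff_zero_eq_eval_zero, coeff_zero_eq_eval_zero, eval_comp, eval_comp, eval_add, eval_X,
        eval_C, zero_add, eval_C4p, eval_C6p]
      intro h
      have h1 := forms_rel a b t₀
      rw [h, sub_self] at h1
      rcases mul_eq_zero.mp h1.symm with h2 | h2
      · exact hab (sub_eq_zero.mp h2)
      · exact hD (pow_eq_zero_iff (by norm_num) |>.mp h2)) M hM (by
      intro s
      rw [eval_comp, eval_comp, eval_add, eval_X, eval_C, eval_C4p, eval_C6p]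
      exact hcon s)
  set f : ℚ[X] := X - C ((Int.castRingHom ℚ) t₀) with hf
  have h1 := congrArg (compRingHom f) hroot
  rw [map_Qv, map_zero, coe_compRingHom_apply, coe_compRingHom_apply, coe_compRingHom_apply] at h1
  have h2 : ∀ Q : ℤ[X], ((Q.comp (X + C t₀)).map (Int.castRingHom ℚ)).comp f =
      Q.map (Int.castRingHom ℚ) := by
    intro Q
    rw [Polynomial.map_comp, comp_assoc]
    have : (Polynomial.map (Int.castRingHom ℚ) (X + C t₀)).comp f = X := by
      rw [hf]; simp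
    rw [this, comp_X]
  rw [h2, h2] at h1
  refine no_root_poly I2 a b hab (P.comp f) ?_ h1
  rw [natDegree_comp, hf, natDegree_X_sub_C, mul_one]
  exact hP

end Fermat.Agent.SW2
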