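import Fermat.Agent.SW2.Vals
import Fermat.Agent.SW2.Count
import Fermat.Agent.SW2.NoRoot
import Fermat.Agent.SW2.Model
import Fermat.Agent.Final.Switch

/-!
# The 3-5 switch at the prime two

If `3 ∣ v₂(Δ)` there is a curve `W'` with the same 5-torsion, `v₂(Δ') = v₂(Δ) + 5`, irreducible
mod `3`.
-/

set_option autoImplicit false

namespace Fermat.Agent.SW2

open WeierstrassCurve Fermat.Agent.S52 Fermat.Agent.S52A

lemma prime_dvd_of_dvd_mul_two_pow {q : ℕ} (hq : q.Prime) (hq2 : q ≠ 2) {k : ℕ} {z : ℤ}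
    (h : (q : ℤ) ∣ 2 ^ k * z) : (q : ℤ) ∣ z := by
  rcases (Nat.prime_iff_prime_int.mp hq).dvd_or_dvd h with h1 | h1
  · exfalso
    have h2 := (Nat.prime_iff_prime_int.mp hq).dvd_of_dvd_pow h1
    have h3 : q ∣ 2 := by exact_mod_cast h2
    exact hq2 ((Nat.prime_dvd_prime_iff_eq hq Nat.prime_two).mp h3)
  · exact h1

/-- the odd part of an integer -/
lemma exists_odd_part {z : ℤ} (hz : z ≠ 0) : ∃ (k : ℕ) (N : ℤ), Odd N ∧ N ≠ 0 ∧ z = 2 ^ k * N := by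
  obtain ⟨k, m, hm, h⟩ := Nat.exists_eq_two_pow_mul_odd (n := z.natAbs) (by omega)
  have h1 : (z.natAbs : ℤ) = 2 ^ k * (m : ℤ) := by exact_mod_cast h
  have hm' : Odd (m : ℤ) := by exact_mod_cast hm
  have hm0 : (m : ℤ) ≠ 0 := by rintro h0; rw [h0] at hm'; exact (Int.not_odd_zero hm').elim
  rcases Int.natAbs_eq z with h2 | h2
  · exact ⟨k, m, hm', hm0, by rw [h2, h1]⟩
  · exact ⟨k, -m, hm'.neg, neg_ne_zero.2 hm0, by rw [h2, h1]; ring⟩

theorem switch_two_aux (I2 : FormsCoprime) (I3 : FormsCount) (W : WeierstrassCurve ℤ)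
    (hΔ : W.Δ ≠ 0) (hW : W.IsSemistableModel) (h2 : (2 : ℤ) ∣ W.Δ)
    (h32 : 3 ∣ padicValInt 2 W.Δ) (B : ℕ) (hB : B ≠ 0) :
    ∃ W' : WeierstrassCurve ℤ, W'.Δ ≠ 0 ∧ (2 : ℤ) ∣ W'.Δ ∧
      padicValInt 2 W'.Δ = padicValInt 2 W.Δ + 5 ∧
      (∀ q : ℕ, q.Prime → q ∣ B → (q : ℤ) ∣ W'.Δ → (q : ℤ) ∣ W.Δ) ∧ W'.IsSemistableModel ∧
      W'.ModRepIsIrreducible 3 ∧
      ∀ ℓ : ℕ, ℓ.Prime → W.IsGoodPrimeFor ℓ → W'.IsGoodPrimeFor ℓ → ℓ ≠ 5 →
        (5 : ℤ) ∣ (W'.apOfModel ℓ - W.apOfModel ℓ) := by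
  obtain ⟨a, ha⟩ : ∃ a, a = W.c₄ := ⟨_, rfl⟩
  obtain ⟨b, hb⟩ : ∃ b, b = W.c₆ := ⟨_, rfl⟩
  have hrel : 1728 * W.Δ = a ^ 3 - b ^ 2 := by rw [ha, hb]; exact W.c_relation
  have hab : a ^ 3 ≠ b ^ 2 := by
    intro h
    apply hΔ
    have : 1728 * W.Δ = 0 := by rw [hrel, h]; ring
    rcases mul_eq_zero.mp this with h1 | h1
    · norm_num at h1
    · exact h1
  -- parity
  have hss2 := hW 2 Nat.prime_two h2
  have haodd : Odd a := by
    rw [← Int.not_even_iff_odd]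
    intro h
    exact hss2 (by rw [← ha]; exact_mod_cast h.two_dvd)
  have hb2odd : Odd W.b₂ := by
    rw [← Int.not_even_iff_odd]
    rintro ⟨r, hr⟩
    apply hss2
    rw [WeierstrassCurve.c₄, hr]
    exact ⟨2 * r ^ 2 - 12 * W.b₄, by push_cast; ring⟩
  have hx4 : W.b₂ % 4 = 1 := by
    have h1 : W.b₂ = W.a₁ ^ 2 + 4 * W.a₂ := rfl
    have h3 : Odd W.a₁ := by
      rw [← Int.not_even_iff_odd]
      rintro ⟨r, hr⟩
      rw [h1, hr] at hb2odd
      exact (Int.not_even_iff_odd.2 hb2odd) ⟨2 * r ^ 2 + 2 * W.a₂, by ring⟩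
    obtain ⟨r, hr⟩ := h3
    have h4 : W.b₂ = 4 * (r ^ 2 + r + W.a₂) + 1 := by rw [h1, hr]; ring
    omega
  have hb4 : b % 4 = 3 := by
    obtain ⟨m, hm⟩ : ∃ m, W.b₂ = 4 * m + 1 := ⟨W.b₂ / 4, by omega⟩
    have h1 : b = 4 * (-(16 * m ^ 3 + 12 * m ^ 2 + 3 * m) - 1 + 9 * W.b₂ * W.b₄ - 54 * W.b₆) + 3 := by
      rw [hb, WeierstrassCurve.c₆]
      have : W.b₂ ^ 3 = 4 * (16 * m ^ 3 + 12 * m ^ 2 + 3 * m) + 1 := by rw [hm]; ring
      rw [this]; ring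
    omega
  have hbodd : Odd b := by rw [Int.odd_iff]; omega
  -- `512 ∣ a³ - b²`
  have hD9 : (2 ^ 9 : ℤ) ∣ a ^ 3 - b ^ 2 := by
    have h1 : 1 ≤ padicValInt 2 W.Δ := by
      by_contra h
      have h0 : padicValInt 2 W.Δ = 0 := by omega
      have hf : Fact (Nat.Prime 2) := ⟨Nat.prime_two⟩
      rcases padicValInt.eq_zero_iff.1 h0 with h3 | h3 | h3
      · norm_num at h3
      · exact hΔ h3
      · exact h3 (by exact_mod_cast h2)
    have h3 : 3 ≤ padicValInt 2 W.Δ := Nat.le_of_dvd (by omega) h32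
    have hf : Fact (Nat.Prime 2) := ⟨Nat.prime_two⟩
    have h4 : ((2 : ℕ) : ℤ) ^ 3 ∣ W.Δ := (pow_dvd_pow _ h3).trans (padicValInt_dvd W.Δ)
    obtain ⟨z, hz⟩ := h4
    rw [← hrel, hz]
    exact ⟨27 * z, by push_cast; ring⟩
  -- the odd part
  obtain ⟨k, N, hNodd, hN0, hN⟩ := exists_odd_part (z := 1728 * (30 * W.Δ) * B) (by
    exact mul_ne_zero (mul_ne_zero (by norm_num) (mul_ne_zero (by norm_num) hΔ))
      (by exact_mod_cast hB))
  have hN81 : (81 : ℤ) ∣ N := by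
    have h1 : (81 : ℤ) ∣ 2 ^ k * N := by
      rw [← hN]
      exact ⟨640 * W.Δ * B, by ring⟩
    have h3 : IsCoprime (81 : ℤ) (2 ^ k) := by
      have : IsCoprime (81 : ℤ) 2 := ⟨1, -40, by norm_num⟩
      exact this.pow_right
    exact h3.dvd_of_dvd_mul_left h1
  have hNdvd : ∀ q : ℕ, q.Prime → q ≠ 2 → (q : ℤ) ∣ 30 * W.Δ * B → (q : ℤ) ∣ N := by
    intro q hq hq2 hd
    apply prime_dvd_of_dvd_mul_two_pow hq hq2 (k := k)
    rw [← hN]
    have : 1728 * (30 * W.Δ) * (B : ℤ) = 1728 * (30 * W.Δ * B) := by ring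
    rw [this]
    exact hd.mul_left _
  -- the parameter
  obtain ⟨u, v, huv⟩ := (isCoprime_two_pow ((Odd.mul (Odd.mul (⟨6, by norm_num⟩ : Odd (13 : ℤ))
    hbodd)) hNodd) 70 1)
  rw [pow_one] at huv
  obtain ⟨t₀, ht₀⟩ : ∃ t₀, t₀ = N * (-(a * v)) := ⟨_, rfl⟩
  have ht₀m : ∀ s : ℤ, (2 ^ 70 : ℤ) ∣ 13 * b * ((2 ^ 70 * N) * s + t₀) + a := by
    intro s
    refine ⟨13 * b * N * s + a * u, ?_⟩
    rw [ht₀]
    linear_combination (-a) * huv
  have hDt₀ : Dp a b t₀ ≠ 0 := by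
    obtain ⟨⟨d, hd, hdo⟩, -, -⟩ := vals hbodd haodd (t := t₀) (by simpa using ht₀m 0) hD9
    rw [hd]
    refine mul_ne_zero (by norm_num) ?_
    rintro rfl
    exact (Int.not_odd_zero hdo).elim
  obtain ⟨s, hs⟩ := exists_no_root' I2 a b t₀ hab hDt₀ (2 ^ 70 * N)
    (mul_ne_zero (by norm_num) hN0)
  obtain ⟨t, ht⟩ : ∃ t, t = 2 ^ 70 * N * s + t₀ := ⟨_, rfl⟩
  have htm : (2 ^ 70 : ℤ) ∣ 13 * b * t + a := by rw [ht]; exact ht₀m s
  rw [← ht] at hs
  have hNt : N ∣ t := by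
    rw [ht, ht₀]
    exact ⟨2 ^ 70 * s - a * v, by ring⟩
  obtain ⟨⟨d, hd, hdo⟩, ⟨c4, hc4, hc4o⟩, ⟨c6, hc6, hc6b⟩⟩ := vals hbodd haodd htm hD9
  -- the relation
  have hrel' : c4 ^ 3 - c6 ^ 2 = 1728 * (W.Δ * 2 ^ 5 * d ^ 5) := by
    have h1 := forms_rel a b t
    rw [hc4, hc6, hd, ← hrel] at h1
    apply mul_left_cancel₀ (pow_ne_zero 120 (two_ne_zero : (2 : ℤ) ≠ 0))
    linear_combination h1
  -- congruences modulo `N`
  obtain ⟨u4, hu4⟩ := dvd_C4p_sub a b t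
  obtain ⟨u6, hu6⟩ := dvd_C6p_sub a b t
  obtain ⟨v', hv'⟩ := dvd_Dp_sub a b t
  obtain ⟨t', ht'⟩ := hNt
  -- the multiplier
  obtain ⟨e, f, g, he1, he2⟩ : ∃ e f g : ℤ, 2 ^ 20 * e = 1 + N * f ∧ e = 1 + 4 * g := by
    obtain ⟨u₀, v₀, h₀⟩ := isCoprime_two_pow hNodd 20 1
    rw [pow_one] at h₀
    obtain ⟨n, hn⟩ := hNodd
    refine ⟨u₀ + N ^ 2 * (1 - u₀), -v₀ + 2 ^ 20 * N * (1 - u₀), (n ^ 2 + n) * (1 - u₀), ?_, ?_⟩
    · linear_combination h₀
    · have : N ^ 2 = 4 * (n ^ 2 + n) + 1 := by rw [hn]; ring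
      rw [this]; ring
  obtain ⟨x, hx⟩ : ∃ x, x = e * W.b₂ := ⟨_, rfl⟩
  have hx1 : x % 4 = 1 := by
    obtain ⟨m, hm⟩ : ∃ m, W.b₂ = 4 * m + 1 := ⟨W.b₂ / 4, by omega⟩
    have : x = 4 * (m + g * (4 * m + 1)) + 1 := by rw [hx, he2, hm]; ring
    omega
  have hxN : N ∣ 2 ^ 20 * x - W.b₂ := ⟨f * W.b₂, by
    rw [hx]; linear_combination W.b₂ * he1⟩
  have hc4N : N ∣ 2 ^ 40 * c4 - a := ⟨t' * u4, by
    rw [← hc4, hu4, ht']; ring⟩
  have hc6N : N ∣ 2 ^ 60 * c6 - b := ⟨t' * u6, by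
    rw [← hc6, hu6, ht']; ring⟩
  have hb4N : N ∣ 2 ^ 40 * (x ^ 2 - c4) - 24 * W.b₄ := by
    obtain ⟨z1, hz1⟩ := hxN
    obtain ⟨z2, hz2⟩ := hc4N
    refine ⟨z1 * (2 ^ 20 * x + W.b₂) - z2, ?_⟩
    have h1 : a = W.b₂ ^ 2 - 24 * W.b₄ := by rw [ha]; rfl
    rw [h1] at hz2
    linear_combination (2 ^ 20 * x + W.b₂) * hz1 - hz2
  have hb6N : N ∣ 2 ^ 60 * (x ^ 3 - 3 * x * c4 - 2 * c6) - 432 * W.b₆ := by
    obtain ⟨z1, hz1⟩ := hxN
    obtain ⟨z2, hz2⟩ := hc4N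
    obtain ⟨z3, hz3⟩ := hc6N
    refine ⟨z1 * ((2 ^ 20 * x) ^ 2 + 2 ^ 20 * x * W.b₂ + W.b₂ ^ 2) - 3 * z1 * (2 ^ 40 * c4) -
      3 * W.b₂ * z2 - 2 * z3, ?_⟩
    have h1 : a = W.b₂ ^ 2 - 24 * W.b₄ := by rw [ha]; rfl
    have h3 : b = -W.b₂ ^ 3 + 36 * W.b₂ * W.b₄ - 216 * W.b₆ := by rw [hb]; rfl
    rw [h1] at hz2
    rw [h3] at hz3
    linear_combination ((2 ^ 20 * x) ^ 2 + 2 ^ 20 * x * W.b₂ + W.b₂ ^ 2 - 3 * (2 ^ 40 * c4)) * hz1 -
      3 * W.b₂ * hz2 - 2 * hz3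
  -- the model
  obtain ⟨W', hW'2, hW'4, hW'6, hW'c4, hW'c6⟩ := exists_model hrel' hx1 (by omega)
    (Int.odd_iff.1 hc4o) (by
      have h1 : (3 : ℤ) ∣ 2 ^ 40 * (x ^ 2 - c4) := by
        have h3 : (3 : ℤ) ∣ 2 ^ 40 * (x ^ 2 - c4) - 24 * W.b₄ :=
          (Dvd.dvd.trans (by norm_num) hN81).trans hb4N
        have h4 : (3 : ℤ) ∣ 24 * W.b₄ := ⟨8 * W.b₄, by ring⟩
        exact (dvd_sub_left h4).1 h3
      exact_mod_cast prime_dvd_of_dvd_mul_two_pow Nat.prime_three (by norm_num) (k := 40)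
        (by exact_mod_cast h1)) (by
      have h1 : (27 : ℤ) ∣ 2 ^ 60 * (x ^ 3 - 3 * x * c4 - 2 * c6) := by
        have h3 : (27 : ℤ) ∣ 2 ^ 60 * (x ^ 3 - 3 * x * c4 - 2 * c6) - 432 * W.b₆ :=
          (Dvd.dvd.trans (by norm_num) hN81).trans hb6N
        have h4 : (27 : ℤ) ∣ 432 * W.b₆ := ⟨16 * W.b₆, by ring⟩
        exact (dvd_sub_left h4).1 h3
      have h5 : IsCoprime (27 : ℤ) (2 ^ 60) := by
        have : IsCoprime (27 : ℤ) 2 := ⟨1, -13, by norm_num⟩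
        exact this.pow_right
      exact h5.dvd_of_dvd_mul_left h1)
  have hΔ' : W'.Δ = W.Δ * 2 ^ 5 * d ^ 5 := by
    have h1 : 1728 * W'.Δ = W'.c₄ ^ 3 - W'.c₆ ^ 2 := W'.c_relation
    rw [hW'c4, hW'c6, hrel'] at h1
    exact mul_left_cancel₀ (by norm_num) h1
  have hd0 : d ≠ 0 := by
    rintro rfl
    exact (Int.not_odd_zero hdo).elim
  have hΔ'0 : W'.Δ ≠ 0 := by
    rw [hΔ']
    exact mul_ne_zero (mul_ne_zero hΔ (by norm_num)) (pow_ne_zero 5 hd0)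
  -- primes dividing `N`
  have hNd : ∀ p : ℕ, p.Prime → (p : ℤ) ∣ N → ¬ (p : ℤ) ∣ d := by
    intro p hp hpN hpd
    have h1 : (p : ℤ) ∣ Dp a b t := by rw [hd]; exact hpd.mul_left _
    rw [hv'] at h1
    have h3 : (p : ℤ) ∣ t * v' := by
      rw [ht']
      exact (hpN.mul_right _).mul_right _
    have h4 : (p : ℤ) ∣ 1 := (dvd_add_left h3).mp h1
    exact hp.one_lt.ne' (by exact_mod_cast Int.eq_one_of_dvd_one (by positivity) h4)
  have hNΔ : ∀ p : ℕ, p.Prime → p ≠ 2 → (p : ℤ) ∣ N → (p : ℤ) ∣ W'.Δ → (p : ℤ) ∣ W.Δ := by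
    intro p hp hp2 hpN hd'
    rw [hΔ'] at hd'
    rcases (Nat.prime_iff_prime_int.mp hp).dvd_or_dvd hd' with h1 | h1
    · rw [mul_comm] at h1
      exact prime_dvd_of_dvd_mul_two_pow hp hp2 h1
    · exact absurd ((Nat.prime_iff_prime_int.mp hp).dvd_of_dvd_pow h1) (hNd p hp hpN)
  have hcast : ∀ (p : ℕ), ((a ^ 3 - b ^ 2 : ℤ) : ZMod p) = (a : ZMod p) ^ 3 - (b : ZMod p) ^ 2 := by
    intro p; push_cast; ring
  -- primes not dividing `30 Δ B`
  have hbig : ∀ p : ℕ, p.Prime → ¬ (p : ℤ) ∣ 30 * W.Δ * B →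
      (¬ p ∣ 30) ∧ (a : ZMod p) ^ 3 ≠ (b : ZMod p) ^ 2 := by
    intro p hp hpn
    have h30 : ¬ p ∣ 30 := by
      intro h
      have : (p : ℤ) ∣ 30 := by exact_mod_cast h
      exact hpn ((this.mul_right _).mul_right _)
    refine ⟨h30, ?_⟩
    intro h
    have h1 : ((a ^ 3 - b ^ 2 : ℤ) : ZMod p) = 0 := by rw [hcast, h, sub_self]
    rw [← hrel, ZMod.intCast_zmod_eq_zero_iff_dvd] at h1
    rcases (Nat.prime_iff_prime_int.mp hp).dvd_or_dvd h1 with h2 | h2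
    · have h3 : p ∣ 1728 := by exact_mod_cast h2
      have h4 : (1728 : ℕ) = 2 ^ 6 * 3 ^ 3 := by norm_num
      rw [h4] at h3
      rcases (hp.dvd_mul).mp h3 with h5 | h5
      · exact h30 ((hp.dvd_of_dvd_pow h5).trans (by norm_num))
      · exact h30 ((hp.dvd_of_dvd_pow h5).trans (by norm_num))
    · exact hpn ((h2.mul_left _).mul_right _)
  refine ⟨W', hΔ'0, ?_, ?_, ?_, ?_, ?_, ?_⟩
  · rw [hΔ']
    exact ⟨W.Δ * 2 ^ 4 * d ^ 5, by ring⟩
  · have hf : Fact (Nat.Prime 2) := ⟨Nat.prime_two⟩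
    rw [hΔ', padicValInt.mul (mul_ne_zero hΔ (by norm_num)) (pow_ne_zero 5 hd0),
      padicValInt.mul hΔ (by norm_num)]
    have h1 : padicValInt 2 ((2 : ℤ) ^ 5) = 5 := by
      have : ((2 : ℤ) ^ 5) = ((2 ^ 5 : ℕ) : ℤ) := by norm_num
      rw [this, padicValInt.of_nat, padicValNat.prime_pow]
    have h3 : padicValInt 2 (d ^ 5) = 0 := by
      apply padicValInt.eq_zero_of_not_dvd
      intro h
      have h4 : (2 : ℤ) ∣ d := Int.prime_two.dvd_of_dvd_pow (by exact_mod_cast h)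
      exact (Int.not_even_iff_odd.2 hdo) (even_iff_two_dvd.2 h4)
    rw [h1, h3]
  · intro q hq hqB hd'
    by_cases hq2 : q = 2
    · rw [hq2]; exact_mod_cast h2
    · refine hNΔ q hq hq2 (hNdvd q hq hq2 ?_) hd'
      have : (q : ℤ) ∣ B := by exact_mod_cast hqB
      exact this.mul_left _
  · -- semistability
    intro p hp hd'
    rw [hW'c4]
    by_cases hp2 : p = 2
    · rw [hp2]
      intro h
      exact (Int.not_even_iff_odd.2 hc4o) (even_iff_two_dvd.2 (by exact_mod_cast h))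
    by_cases h30 : (p : ℤ) ∣ 30 * W.Δ * B
    · have hpN := hNdvd p hp hp2 h30
      have h1 := hNΔ p hp hp2 hpN hd'
      intro h3
      apply hW p hp h1
      rw [← ha]
      have h4 : (p : ℤ) ∣ 2 ^ 40 * c4 - a := hpN.trans hc4N
      exact (dvd_sub_right (h3.mul_left _)).1 h4
    · obtain ⟨h1, h3⟩ := hbig p hp h30
      have hpD : ¬ (p : ℤ) ∣ W.Δ := fun h => h30 ((h.mul_left _).mul_right _)
      have h4 : (p : ℤ) ∣ Dp a b t := by
        rw [hΔ'] at hd'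
        rw [hd]
        rcases (Nat.prime_iff_prime_int.mp hp).dvd_or_dvd hd' with h5 | h5
        · rw [mul_comm] at h5
          exact absurd (prime_dvd_of_dvd_mul_two_pow hp hp2 h5) hpD
        · exact ((Nat.prime_iff_prime_int.mp hp).dvd_of_dvd_pow h5).mul_left _
      have : Fact p.Prime := ⟨hp⟩
      intro h5
      have h6 : (p : ℤ) ∣ C4p a b t := by rw [hc4]; exact h5.mul_left _
      rw [← ZMod.intCast_zmod_eq_zero_iff_dvd] at h4 h6
      have e1 := map_Dp (Int.castRingHom (ZMod p)) a b t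
      have e2 := map_C4p (Int.castRingHom (ZMod p)) a b t
      simp only [eq_intCast] at e1 e2
      rw [h4] at e1
      rw [h6] at e2
      refine I2 (ZMod p) (a : ZMod p) (b : ZMod p) (t : ZMod p) ?_ h3 e1.symm e2.symm
      intro h7
      apply h1
      have h8 : ((30 : ℕ) : ZMod p) = 0 := by exact_mod_cast h7
      exact (ZMod.natCast_eq_zero_iff _ _).mp h8
  · -- irreducibility
    by_contra hirr
    have hΔQ : (W'.map (Int.castRingHom ℚ)).Δ ≠ 0 := by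
      rw [map_Δ]
      simpa using hΔ'0
    obtain ⟨q, hq⟩ := S51.Galois.three (E := W'.map (Int.castRingHom ℚ)) hΔQ hirr
    obtain ⟨z, hz⟩ := root_of_P3 W' q hq
    rw [hW'c4, hW'c6] at hz
    apply hs (2 ^ 20 * z)
    rw [hc4, hc6]
    simp only [Qv] at hz ⊢
    linear_combination 2 ^ 80 * hz
  · intro ℓ hℓ hg hg' h5
    have : Fact ℓ.Prime := ⟨hℓ⟩
    have hℓ2 : ℓ ≠ 2 := by
      rintro rfl
      exact hg (by exact_mod_cast h2)
    have h2' : (2 : ZMod ℓ) ≠ 0 := by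
      intro h
      have h6 : ((2 : ℕ) : ZMod ℓ) = 0 := by exact_mod_cast h
      exact hℓ2 ((Nat.prime_dvd_prime_iff_eq hℓ Nat.prime_two).mp
        ((ZMod.natCast_eq_zero_iff _ _).mp h6))
    have hΔℓ : (W.reductionMod ℓ).Δ ≠ 0 := by
      rw [reductionMod, map_Δ, eq_intCast, Ne, ZMod.intCast_zmod_eq_zero_iff_dvd]
      exact hg
    have hΔℓ' : (W'.reductionMod ℓ).Δ ≠ 0 := by
      rw [reductionMod, map_Δ, eq_intCast, Ne, ZMod.intCast_zmod_eq_zero_iff_dvd]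
      exact hg'
    by_cases h30 : (ℓ : ℤ) ∣ 30 * W.Δ * B
    · have hpN := hNdvd ℓ hℓ hℓ2 h30
      have key : ∀ z : ℤ, (N ∣ 432 * z) → (ℓ : ℤ) ∣ z := by
        intro z hz
        by_cases hℓ3 : ℓ = 3
        · rw [hℓ3]
          obtain ⟨z', hz'⟩ := hN81.trans hz
          exact_mod_cast prime_dvd_of_dvd_mul_two_pow Nat.prime_three (by norm_num) (k := 4)
            (show ((3 : ℕ) : ℤ) ∣ 2 ^ 4 * z from ⟨z', by push_cast; linarith⟩)
        · have h6 : (ℓ : ℤ) ∣ 2 ^ 4 * (27 * z) := by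
            have : 2 ^ 4 * (27 * z) = 432 * z := by ring
            rw [this]; exact hpN.trans hz
          have h7 := prime_dvd_of_dvd_mul_two_pow hℓ hℓ2 h6
          rcases (Nat.prime_iff_prime_int.mp hℓ).dvd_or_dvd h7 with h8 | h8
          · exfalso
            have h9 : (ℓ : ℤ) ∣ 3 ^ 3 := by norm_num; exact h8
            have h10 := (Nat.prime_iff_prime_int.mp hℓ).dvd_of_dvd_pow h9
            have h11 : ℓ ∣ 3 := by exact_mod_cast h10
            exact hℓ3 ((Nat.prime_dvd_prime_iff_eq hℓ Nat.prime_three).mp h11)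
          · exact h8
      have k2 : (ℓ : ℤ) ∣ W.b₂ - 2 ^ 20 * W'.b₂ := by
        rw [hW'2, ← dvd_neg, neg_sub]
        exact hpN.trans hxN
      have k4 : (ℓ : ℤ) ∣ W.b₄ - 2 ^ 40 * W'.b₄ := by
        apply key
        rw [← hW'4] at hb4N
        obtain ⟨z, hz⟩ := hb4N
        exact ⟨-18 * z, by linear_combination (-18) * hz⟩
      have k6 : (ℓ : ℤ) ∣ W.b₆ - 2 ^ 60 * W'.b₆ := by
        apply key
        rw [← hW'6] at hb6N
        obtain ⟨z, hz⟩ := hb6N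
        exact ⟨-z, by linear_combination -hz⟩
      have hcard : Nat.card (W.reductionMod ℓ).toAffine.Point =
          Nat.card (W'.reductionMod ℓ).toAffine.Point := by
        rw [← ZMod.intCast_zmod_eq_zero_iff_dvd] at k2 k4 k6
        push_cast at k2 k4 k6
        refine card_eq_of_scale (W.reductionMod ℓ) (W'.reductionMod ℓ) h2' (u := 2 ^ 10)
          (pow_ne_zero 10 h2') hΔℓ hΔℓ' ?_ ?_ ?_
        · simp only [reductionMod, map_b₂, eq_intCast]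
          linear_combination k2
        · simp only [reductionMod, map_b₄, eq_intCast]
          linear_combination k4
        · simp only [reductionMod, map_b₆, eq_intCast]
          linear_combination k6
      have hfin : W'.apOfModel ℓ - W.apOfModel ℓ = 0 := by
        simp only [WeierstrassCurve.apOfModel, WeierstrassCurve.traceOfFrobenius,
          WeierstrassCurve.card, hcard]
        ring
      rw [hfin]
      exact dvd_zero _
    · obtain ⟨h1, h3⟩ := hbig ℓ hℓ h30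
      have hDp : Dp (a : ZMod ℓ) (b : ZMod ℓ) (t : ZMod ℓ) ≠ 0 := by
        have e1 := map_Dp (Int.castRingHom (ZMod ℓ)) a b t
        simp only [eq_intCast] at e1
        rw [← e1, Ne, ZMod.intCast_zmod_eq_zero_iff_dvd]
        intro h4
        apply hg'
        rw [hΔ']
        rw [hd] at h4
        have h6 := prime_dvd_of_dvd_mul_two_pow hℓ hℓ2 h4
        exact (h6.trans (dvd_pow_self _ (by norm_num))).mul_left _
      have h4 := I3 ℓ (a : ZMod ℓ) (b : ZMod ℓ) (t : ZMod ℓ) h1 h3 hDp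
      have h3' : (3 : ZMod ℓ) ≠ 0 := by
        intro h
        have h6 : ((3 : ℕ) : ZMod ℓ) = 0 := by exact_mod_cast h
        exact h1 (((ZMod.natCast_eq_zero_iff _ _).mp h6).trans (by norm_num))
      have hc1 : Nat.card (W.reductionMod ℓ).toAffine.Point
          = Nat.card (shortE (a : ZMod ℓ) (b : ZMod ℓ)).toAffine.Point := by
        rw [card_short (W.reductionMod ℓ) h2' h3' hΔℓ]
        simp only [reductionMod, map_c₄, map_c₆, eq_intCast, ← ha, ← hb]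
      have h6' : (6 : ZMod ℓ) ≠ 0 := by
        have : (6 : ZMod ℓ) = 2 * 3 := by norm_num
        rw [this]; exact mul_ne_zero h2' h3'
      have hc2 : Nat.card (W'.reductionMod ℓ).toAffine.Point
          = Nat.card (shortE (C4p (a : ZMod ℓ) (b : ZMod ℓ) (t : ZMod ℓ))
              (C6p (a : ZMod ℓ) (b : ZMod ℓ) (t : ZMod ℓ))).toAffine.Point := by
        rw [card_short (W'.reductionMod ℓ) h2' h3' hΔℓ']
        have e1 := map_C4p (Int.castRingHom (ZMod ℓ)) a b t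
        have e2 := map_C6p (Int.castRingHom (ZMod ℓ)) a b t
        simp only [eq_intCast] at e1 e2
        have s4 : (W'.reductionMod ℓ).c₄ = (c4 : ZMod ℓ) := by
          simp only [reductionMod, map_c₄, eq_intCast, hW'c4]
        have s6 : (W'.reductionMod ℓ).c₆ = (c6 : ZMod ℓ) := by
          simp only [reductionMod, map_c₆, eq_intCast, hW'c6]
        have d1 : (shortE (W'.reductionMod ℓ).c₄ (W'.reductionMod ℓ).c₆).Δ ≠ 0 := by
          rw [Fermat.Agent.S52A.shortE_Δ]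
          exact mul_ne_zero (pow_ne_zero _ h6') hΔℓ'
        have hsc : ∀ A B A' B' u : ZMod ℓ, A = u ^ 4 * A' → B = u ^ 6 * B' →
            (shortE A B).Δ = u ^ 12 * (shortE A' B').Δ := by
          rintro _ _ A' B' u rfl rfl
          simp only [shortE, WeierstrassCurve.Δ, WeierstrassCurve.b₂, WeierstrassCurve.b₄,
            WeierstrassCurve.b₆, WeierstrassCurve.b₈]
          ring
        have q4 : C4p (a : ZMod ℓ) (b : ZMod ℓ) (t : ZMod ℓ) = (2 ^ 10) ^ 4 * (c4 : ZMod ℓ) := by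
          rw [← e1, hc4]; push_cast; ring
        have q6 : C6p (a : ZMod ℓ) (b : ZMod ℓ) (t : ZMod ℓ) = (2 ^ 10) ^ 6 * (c6 : ZMod ℓ) := by
          rw [← e2, hc6]; push_cast; ring
        rw [s4, s6] at d1 ⊢
        symm
        refine card_shortE_scale h2' (u := 2 ^ 10) (pow_ne_zero 10 h2') q4 q6 ?_ d1
        rw [hsc _ _ _ _ _ q4 q6]
        exact mul_ne_zero (pow_ne_zero _ (pow_ne_zero _ h2')) d1
      have hfin : W'.apOfModel ℓ - W.apOfModel ℓ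
          = (Nat.card (shortE (a : ZMod ℓ) (b : ZMod ℓ)).toAffine.Point : ℤ)
            - (Nat.card (shortE (C4p (a : ZMod ℓ) (b : ZMod ℓ) (t : ZMod ℓ))
              (C6p (a : ZMod ℓ) (b : ZMod ℓ) (t : ZMod ℓ))).toAffine.Point : ℤ) := by
        simp only [WeierstrassCurve.apOfModel, WeierstrassCurve.traceOfFrobenius,
          WeierstrassCurve.card, hc1, hc2]
        ring
      rw [hfin]
      exact h4

end Fermat.Agent.SW2
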