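import Fermat.Agent.SW2.Ident

/-!
# The two-adic sizes of the forms
-/

set_option autoImplicit false

namespace Fermat.Agent.SW2

open Fermat.Agent.S52 Polynomial

lemma sub_dvd_Dp (x y b t : ℤ) : x - y ∣ Dp x b t - Dp y b t := by
  have h := Polynomial.sub_dvd_eval_sub x y (Dp (X : ℤ[X]) (C b) (C t))
  have e : ∀ z : ℤ, (Dp (X : ℤ[X]) (C b) (C t)).eval z = Dp z b t := by
    intro z
    have := map_Dp (evalRingHom z) (X : ℤ[X]) (C b) (C t)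
    simpa using this
  rwa [e, e] at h

lemma sub_dvd_C4p (x y b t : ℤ) : x - y ∣ C4p x b t - C4p y b t := by
  have h := Polynomial.sub_dvd_eval_sub x y (C4p (X : ℤ[X]) (C b) (C t))
  have e : ∀ z : ℤ, (C4p (X : ℤ[X]) (C b) (C t)).eval z = C4p z b t := by
    intro z
    have := map_C4p (evalRingHom z) (X : ℤ[X]) (C b) (C t)
    simpa using this
  rwa [e, e] at h

lemma sub_dvd_C6p (x y b t : ℤ) : x - y ∣ C6p x b t - C6p y b t := by
  have h := Polynomial.sub_dvd_eval_sub x y (C6p (X : ℤ[X]) (C b) (C t))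
  have e : ∀ z : ℤ, (C6p (X : ℤ[X]) (C b) (C t)).eval z = C6p z b t := by
    intro z
    have := map_C6p (evalRingHom z) (X : ℤ[X]) (C b) (C t)
    simpa using this
  rwa [e, e] at h

lemma isCoprime_two_pow {x : ℤ} (hx : Odd x) (n m : ℕ) : IsCoprime ((2 : ℤ) ^ n) (x ^ m) := by
  have h : IsCoprime (2 : ℤ) x := by
    obtain ⟨k, hk⟩ := hx
    exact ⟨-k, 1, by rw [hk]; ring⟩
  exact h.pow

theorem vals {a b t : ℤ} (hb : Odd b) (ha : Odd a) (h : (2 ^ 70 : ℤ) ∣ 13 * b * t + a)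
    (hD : (2 ^ 9 : ℤ) ∣ a ^ 3 - b ^ 2) :
    (∃ d, Dp a b t = 2 ^ 25 * d ∧ Odd d) ∧ (∃ c, C4p a b t = 2 ^ 40 * c ∧ Odd c) ∧
      ∃ c, C6p a b t = 2 ^ 60 * c ∧ (4 : ℤ) ∣ c - b := by
  obtain ⟨k, hk⟩ := h
  have hbt : Odd (13 * b * t) := by
    have h1 : 13 * b * t = 2 * (2 ^ 69 * k) - a := by linear_combination hk
    rw [h1]
    exact (even_two_mul _).sub_odd ha
  have ht : Odd t := (Int.odd_mul.1 hbt).2
  obtain ⟨a', ha'⟩ : ∃ a', a' = -(13 * b * t) := ⟨_, rfl⟩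
  have haa : a - a' = 2 ^ 70 * k := by rw [ha', ← hk]; ring
  -- `512 ∣ 2197 b t ^ 3 + 1`
  have hq : (2 ^ 9 : ℤ) ∣ 2197 * b * t ^ 3 + 1 := by
    have h1 : (2 ^ 9 : ℤ) ∣ b ^ 2 * (2197 * b * t ^ 3 + 1) := by
      have h2 : a ^ 3 - a' ^ 3 = 2 ^ 9 * (2 ^ 61 * k * (a ^ 2 + a * a' + a' ^ 2)) := by
        have : a ^ 3 - a' ^ 3 = (a - a') * (a ^ 2 + a * a' + a' ^ 2) := by ring
        rw [this, haa]; ring
      have h3 : b ^ 2 * (2197 * b * t ^ 3 + 1) = (a ^ 3 - a' ^ 3) - (a ^ 3 - b ^ 2) := by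
        rw [ha']; ring
      rw [h3]
      exact dvd_sub ⟨_, h2⟩ hD
    exact (isCoprime_two_pow hb 9 2).dvd_of_dvd_mul_left h1
  obtain ⟨r', hr'⟩ := hq
  obtain ⟨r, hr⟩ : ∃ r : ℤ, 2197 * b * t ^ 3 + 1 = -512 * r := ⟨-r', by rw [hr']; ring⟩
  have i1 := idDp b t r hr
  have i2 := idC4p b t r hr
  have i3 := idC6p b t r hr
  rw [← ha'] at i1 i2 i3
  obtain ⟨u1, hu1⟩ := sub_dvd_Dp a a' b t
  obtain ⟨u2, hu2⟩ := sub_dvd_C4p a a' b t
  obtain ⟨u3, hu3⟩ := sub_dvd_C6p a a' b t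
  rw [haa] at hu1 hu2 hu3
  have h13 : Odd (13 : ℤ) := ⟨6, by norm_num⟩
  refine ⟨?_, ?_, ?_⟩
  · -- `Dp`
    have e1 : 13 ^ 12 * Dp a b t = 2 ^ 25 * (531441 + 8 * SDp r + 2 ^ 45 * (13 ^ 12 * k * u1)) := by
      have : Dp a b t = Dp a' b t + 2 ^ 70 * k * u1 := by linarith
      rw [this, mul_add, i1]
      ring
    obtain ⟨d, hd⟩ := (isCoprime_two_pow h13 25 12).dvd_of_dvd_mul_left ⟨_, e1⟩
    refine ⟨d, hd, ?_⟩
    rw [hd] at e1
    have e2 : 13 ^ 12 * d = 531441 + 8 * SDp r + 2 ^ 45 * (13 ^ 12 * k * u1) := by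
      apply mul_left_cancel₀ (pow_ne_zero 25 (two_ne_zero : (2 : ℤ) ≠ 0))
      rw [← e1]; ring
    have e3 : Odd (13 ^ 12 * d) := by
      rw [e2]
      exact ⟨265720 + 4 * SDp r + 2 ^ 44 * (13 ^ 12 * k * u1), by ring⟩
    exact (Int.odd_mul.1 e3).2
  · -- `C4p`
    have e1 : 13 ^ 20 * C4p a b t = 2 ^ 40 * (-(13 * b * t) * (3486784401 + 64 * SC4p r) +
        2 ^ 30 * (13 ^ 20 * k * u2)) := by
      have : C4p a b t = C4p a' b t + 2 ^ 70 * k * u2 := by linarith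
      rw [this, mul_add, i2, ha']
      ring
    obtain ⟨d, hd⟩ := (isCoprime_two_pow h13 40 20).dvd_of_dvd_mul_left ⟨_, e1⟩
    refine ⟨d, hd, ?_⟩
    rw [hd] at e1
    have e2 : 13 ^ 20 * d = -(13 * b * t) * (3486784401 + 64 * SC4p r) +
        2 ^ 30 * (13 ^ 20 * k * u2) := by
      apply mul_left_cancel₀ (pow_ne_zero 40 (two_ne_zero : (2 : ℤ) ≠ 0))
      rw [← e1]; ring
    have e3 : Odd (13 ^ 20 * d) := by
      rw [e2]
      have o1 : Odd (-(13 * b * t) * (3486784401 + 64 * SC4p r)) := by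
        refine Odd.mul ?_ ⟨1743392200 + 32 * SC4p r, by ring⟩
        exact hbt.neg
      exact o1.add_even ⟨2 ^ 29 * (13 ^ 20 * k * u2), by ring⟩
    exact (Int.odd_mul.1 e3).2
  · -- `C6p`
    have e1 : 13 ^ 30 * C6p a b t = 2 ^ 60 * (b * (205891132094649 + 32 * SC6p r) +
        2 ^ 10 * (13 ^ 30 * k * u3)) := by
      have : C6p a b t = C6p a' b t + 2 ^ 70 * k * u3 := by linarith
      rw [this, mul_add, i3]
      ring
    obtain ⟨d, hd⟩ := (isCoprime_two_pow h13 60 30).dvd_of_dvd_mul_left ⟨_, e1⟩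
    refine ⟨d, hd, ?_⟩
    rw [hd] at e1
    have e2 : 13 ^ 30 * d = b * (205891132094649 + 32 * SC6p r) + 2 ^ 10 * (13 ^ 30 * k * u3) := by
      apply mul_left_cancel₀ (pow_ne_zero 60 (two_ne_zero : (2 : ℤ) ≠ 0))
      rw [← e1]; ring
    have e3 : (4 : ℤ) ∣ 13 ^ 30 * (d - b) := by
      have h4 : (13 ^ 30 : ℤ) = 4 * ((13 ^ 30 - 1) / 4) + 1 := by norm_num
      refine ⟨-((13 ^ 30 - 1) / 4 * b) + 51472783023662 * b + 8 * b * SC6p r +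
        2 ^ 8 * (13 ^ 30 * k * u3), ?_⟩
      have h5 : (13 : ℤ) ^ 30 * (d - b) = 13 ^ 30 * d - 13 ^ 30 * b := by ring
      rw [h5, e2]
      nth_rewrite 2 [h4]
      ring
    exact (by simpa using isCoprime_two_pow h13 2 30 : IsCoprime (4 : ℤ) (13 ^ 30)).dvd_of_dvd_mul_left e3

end Fermat.Agent.SW2
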