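import Fermat.Agent.SW2.Final
import Fermat.Agent.Final.Wire

/-!
# The switch changing the valuation of the discriminant at `2`, in the form of the final wiring
-/

set_option autoImplicit false

namespace Fermat.Agent.SW2

/-- `Final.Switch2` holds. -/
theorem switch2 : Final.Switch2 :=
  fun W hΔ hW h2 h32 B hB => switch_two W hΔ hW h2 h32 B hB

end Fermat.Agent.SW2
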